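/-
Project ONE MACHINE (S43), block [F] EASY, cell (Z6) [RES-Hecke], part 1 (helper15).  Prefix `twfq_` (renamed from `twfk_`: that prefix is helper12's, `TW/Easy/ResHecke.lean`).

**(★★)_m** — the two-prime, arbitrary-exponent twin of helper11's `s44ha_fbar_hecke`
(`S44/HeckeRes/AsmRes.lean`):  `A` over `q`, `q ∤ M`, level `M q`, ANY exponent `m`:

  `twfq_fbar_hecke : twfr_Fbar A M q m z fb → twfr_Fbar A M q m (T_ℓ z) (N_ᾱ (β̄ fb))`

for every prime `ℓ ∤ M q`: if `fb` is the `w_∞`-reduction of a representative `f` of `z`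
(`div f = m D`, `[D] = z`), then `N_ᾱ (β̄ fb)` is the `w_∞`-reduction of the representative
`N_α (β f)` of `T_ℓ z`.  Inputs, all exponent-free and on main: (E3-REP) `s44hr_rep_hecke`
(any exponent), (E3-2) `s44ha_normRed` (the residue map commutes with the norms along `α`, `ᾱ`),
the residue dictionary `s44rd_*` (helper28).
-/
import Mathlib
import Fermat.Agent.TW.Easy.Res.Main
import Fermat.Agent.S44.HeckeRes.AsmRes

set_option autoImplicit false
set_option linter.unusedSectionVars false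
set_option linter.unusedVariables false
set_option linter.style.haveILetI false
set_option synthInstance.maxHeartbeats 400000
set_option maxHeartbeats 1000000

noncomputable section

namespace Fermat.Agent.TW

open ModularCurve AlgebraicCurve IntermediateField IsLocalRing
open Fermat.Agent.JT3 Fermat.Agent.SS Fermat.Agent.S35 Fermat.Agent.S24 Fermat.Agent.S28
open Fermat.Agent.MZ Fermat.Agent.S44

local notation "Qb" => AlgebraicClosure ℚ

section Star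

variable (A : ValuationSubring Qb) {q : ℕ} [hq : Fact q.Prime] (hA : A.LiesOverPrime q)
  (M : ℕ) [NeZero M] [NeZero q] [NeZero (M * q)] (hqM : ¬ q ∣ M) {m : ℕ}

include hA hqM in
/-- **(★★)_m**: `N_ᾱ (β̄ fb)` is a reduction for `T_ℓ z` when `fb` is one for `z`; every prime
`ℓ ∤ M q`, every exponent `m`. -/
theorem twfq_fbar_hecke (ℓ : Nat.Primes) (hℓN : ¬ (ℓ : ℕ) ∣ M * q) {z : JZero (M * q)}
    {fb : s44e_FF A M} (h : twfr_Fbar A M q m z fb) :
    twfr_Fbar A M q m (heckeOperatorBar (M * q) ℓ z)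
      (haveI : NeZero (ℓ : ℕ) := ⟨ℓ.2.ne_zero⟩
       s35pe_normAlong (mzrh_alC (s44e_kA A) M ℓ) (mzrh_beC (s44e_kA A) M ℓ fb)) := by
  haveI : NeZero (ℓ : ℕ) := ⟨ℓ.2.ne_zero⟩
  have hqℓ : ¬ q ∣ (ℓ : ℕ) := s44ha_not_dvd_prime A hA M ℓ hℓN
  have hqMℓ : ¬ q ∣ M * (ℓ : ℕ) := mzrh_not_dvd_mul M (ℓ : ℕ) hqM hqℓ
  have hnorm := s44ha_normRed A hA M hqM (ℓ : ℕ) ℓ.2 hℓN hqMℓ
  haveI := jcr_charP A hA
  haveI := jcr_isAlgClosed A
  obtain ⟨hfb0, f, hf, hb, e⟩ := h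
  have h1 : f ∈ s44pg_W A hA hq.out.ne_zero (M * q) := hb
  have e' : s44rd_red A hA M hqM ⟨f, h1⟩ = fb := Subtype.ext e
  have h2 : f⁻¹ ∈ s44pg_W A hA hq.out.ne_zero (M * q) :=
    ((s44rd_red_ne_zero_iff A hA M hqM ⟨f, h1⟩).1 (by rw [e']; exact hfb0)).2
  -- `β f` is a unit of `W∞(N ℓ)`
  have hβ1 : heckeBetaBar Qb (M * q) ℓ f ∈ s44pg_W A hA hq.out.ne_zero (M * q * ℓ) :=
    (s44rd_beta_mem_iff A hA (ℓ : ℕ) f).2 h1
  -- its reduction is `β̄ (red f)`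
  have hredβ : s44rd_redG A hA (s44rd_level_mul (rfl : M * q = M * q) (ℓ : ℕ)) hqMℓ
      ⟨heckeBetaBar Qb (M * q) ℓ f, hβ1⟩ =
      mzrh_beC (ResidueField ↥A) M ℓ (s44rd_red A hA M hqM ⟨f, h1⟩) := by
    rw [← s44rd_redG_eq_red]
    exact s44rd_red_beta A hA (rfl : M * q = M * q) hqM (ℓ : ℕ) hqMℓ ⟨f, h1⟩
  obtain ⟨hn, hnred⟩ := hnorm ⟨heckeBetaBar Qb (M * q) ℓ f, hβ1⟩
  rw [hredβ, e'] at hnred
  -- the norm of a nonzero element is nonzero
  have hβfb0 : mzrh_beC (ResidueField ↥A) M ℓ fb ≠ 0 := by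
    rw [Ne, map_eq_zero]
    exact hfb0
  haveI := mzrh_hasPrincipalDivisorsC (k := ResidueField ↥A) M (ℓ : ℕ) (jcr_rho A hA) hqM hqℓ
  have hN0 : s35pe_normAlong (mzrh_alC (ResidueField ↥A) M ℓ)
      (mzrh_beC (ResidueField ↥A) M ℓ fb) ≠ 0 :=
    s44hk_normAlong_ne_zero _ (mzrh_finiteAlong_alC M (ℓ : ℕ) (jcr_rho A hA) hqM hqℓ) hβfb0
  refine ⟨hN0, s44hr_T (M * q) ℓ f, s44hr_rep_hecke (M * q) m ℓ z f hf, hn, ?_⟩
  rw [← hnred]
  rfl

end Star

end Fermat.Agent.TW
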