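/-
Project ONE MACHINE (S43), block [F] EASY, cell (Z6) [RES-Hecke], part 2 (helper15).  Prefix `twfq_` (renamed from `twfk_`: that prefix is helper12's, `TW/Easy/ResHecke.lean`).

`A` over the odd prime `q`, `q ∤ M`, level `M q`, exponent `m ≠ 0` coprime to `6`; `ν = twfr_nu`,
`δ = twfr_delta` (helper20, `TW/Easy/Res`), `T̃_ℓ = s44k2_TCp kA M ℓ` the Hecke correspondence of the
special fibre of level `M` (`S44/OldK/LevelM.lean`).

* `twfq_delta_eq_cls`   : `δ z = s44k2d_cls m fb` for ANY reduction `fb` of `z` with `m ∣ div fb`;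
* `twfq_delta_hecke_of` : (★★)_m + [E3b]-abstract (`s44k2d_cls_corr`):
                          `m ∣ div f̄_z ⟹ δ (T_ℓ z) = T̃_ℓ (δ z)`;
* **`twfq_delta_hecke`** : **(Z6)** `m • z = 0`, `ν z = 0` ⟹ `δ (T_ℓ z) = T̃_ℓ (δ z)`, every prime
                          `ℓ ∤ M q`;
* `twfq_nu_hecke_zero`  : under the same hypotheses `m ∣ div f̄_{T_ℓ z}`, i.e. `ν (T_ℓ z) = 0`
                          (so the hypothesis `ν (T_ℓ z) = 0` of the S44 interface is automatic);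
* `twfq_delta_eigen`    : `T_ℓ z = a • z`, `ν z = 0` ⟹ `T̃_ℓ (δ z) = a • δ z` (the shape consumed by
                          `twf_level_of_delta`).
-/
import Mathlib
import Fermat.Agent.TW.Easy.ResHecke.Star
import Fermat.Agent.TW.Easy.ResHecke
import Fermat.Agent.S44.OldK.DeltaInst

set_option autoImplicit false
set_option linter.unusedSectionVars false
set_option linter.unusedVariables false
set_option linter.style.haveILetI false
set_option synthInstance.maxHeartbeats 400000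
set_option maxHeartbeats 1000000

noncomputable section

namespace Fermat.Agent.TW

open ModularCurve AlgebraicCurve IntermediateField IsLocalRing
open Fermat.Agent.JT3 Fermat.Agent.SS Fermat.Agent.S35 Fermat.Agent.S24 Fermat.Agent.S28
open Fermat.Agent.MZ Fermat.Agent.S44

local notation "Qb" => AlgebraicClosure ℚ

section General

variable (A : ValuationSubring Qb) {q : ℕ} [hq : Fact q.Prime] (hA : A.LiesOverPrime q)
  (M : ℕ) [NeZero M] [NeZero q] [NeZero (M * q)] (hqM : ¬ q ∣ M) {m : ℕ} (hm0 : m ≠ 0)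

include hA hqM hm0

/-- the special fibre of level `M` has principal divisors. -/
theorem twfq_hpd : HasPrincipalDivisors (s44e_kA A) (s44e_FF A M) := by
  haveI : CharP (s44e_kA A) q := jcr_charP A hA
  haveI : IsAlgClosed (s44e_kA A) := jcr_isAlgClosed A
  exact rt_hasPrincipalDivisors (jcr_isSepGen (k := s44e_kA A) M hqM (jcr_rho A hA))

/-- `δ z` is the class `[(1/m) div fb]` of ANY reduction `fb` of `z` with `m ∣ div fb`. -/
theorem twfq_delta_eq_cls {z : JZero (M * q)} (hz : m • z = 0) {fb : s44e_FF A M}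
    (h : twfr_Fbar A M q m z fb)
    (hd : ∀ Q : Place (s44e_kA A) (s44e_FF A M), (m : ℤ) ∣ Q.ord fb) :
    twfr_delta A M q m z =
      (haveI := twfq_hpd A hA M hqM hm0
       s44k2d_cls (K := s44e_kA A) m fb) := by
  haveI := twfq_hpd A hA M hqM hm0
  have hpd : s44k2d_PDiv (K := s44e_kA A) m fb := ⟨h.1, hd⟩
  obtain ⟨D, hD, hcls⟩ := s44k2d_cls_spec hm0 hpd
  rw [hcls]
  exact twfr_delta_eq A hq.out hA M hqM (Nat.pos_of_ne_zero hm0) (s44rd_hmem A hA M hqM) hz h D hD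

/-- (★★)_m + [E3b]: `m ∣ div f̄_z ⟹ δ (T_ℓ z) = T̃_ℓ (δ z)`. -/
theorem twfq_delta_hecke_of (ℓ : Nat.Primes) (hℓN : ¬ (ℓ : ℕ) ∣ M * q) {z : JZero (M * q)}
    (hz : m • z = 0) {fb : s44e_FF A M} (h : twfr_Fbar A M q m z fb)
    (hd : ∀ Q : Place (s44e_kA A) (s44e_FF A M), (m : ℤ) ∣ Q.ord fb) :
    twfr_delta A M q m (heckeOperatorBar (M * q) ℓ z) =
      s44k2_TCp (s44e_kA A) M ℓ (twfr_delta A M q m z) := by
  haveI : NeZero (ℓ : ℕ) := ⟨ℓ.2.ne_zero⟩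
  haveI hcharP := jcr_charP A hA
  haveI halg := jcr_isAlgClosed A
  haveI hpdF := twfq_hpd A hA M hqM hm0
  have hqℓ : ¬ q ∣ (ℓ : ℕ) := s44ha_not_dvd_prime A hA M ℓ hℓN
  have hTz : m • heckeOperatorBar (M * q) ℓ z = 0 := by
    rw [← map_nsmul, hz, map_zero]
  obtain ⟨hαC, hβC, hPC, hfinC, hFIC, hNC⟩ := mzrh_heckeInputsC M ℓ (jcr_rho A hA) hqM hqℓ
  haveI := hPC
  have hpd : s44k2d_PDiv (K := s44e_kA A) m fb := ⟨h.1, hd⟩
  have hT := twfq_fbar_hecke A hA M hqM (m := m) ℓ hℓN h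
  have hpdT := s44k2d_pdiv_corr (mzrh_beC (s44e_kA A) M ℓ) (mzrh_alC (s44e_kA A) M ℓ) hβC hαC hFIC
    hfinC hNC hm0 hpd
  rw [twfq_delta_eq_cls A hA M hqM hm0 hTz hT hpdT.2, twfq_delta_eq_cls A hA M hqM hm0 hz h hd,
    s44k2d_cls_corr (mzrh_beC (s44e_kA A) M ℓ) (mzrh_alC (s44e_kA A) M ℓ) hβC hαC hFIC hfinC hNC
      hm0 hpd, s44k2_TCp_eq, s44k2_TC_eq hαC hβC hFIC hfinC hNC]

/-- under `m ∣ div f̄_z`, also `m ∣ div f̄_{T_ℓ z}` (for the reduction `N_ᾱ (β̄ fb)`). -/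
theorem twfq_dvd_hecke_of (ℓ : Nat.Primes) (hℓN : ¬ (ℓ : ℕ) ∣ M * q) {z : JZero (M * q)}
    {fb : s44e_FF A M} (h : twfr_Fbar A M q m z fb)
    (hd : ∀ Q : Place (s44e_kA A) (s44e_FF A M), (m : ℤ) ∣ Q.ord fb) :
    ∀ Q : Place (s44e_kA A) (s44e_FF A M),
      twfr_nuAll A M q m (heckeOperatorBar (M * q) ℓ z) Q = 0 := by
  haveI : NeZero (ℓ : ℕ) := ⟨ℓ.2.ne_zero⟩
  haveI hcharP := jcr_charP A hA
  haveI halg := jcr_isAlgClosed A
  haveI hpdF := twfq_hpd A hA M hqM hm0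
  have hqℓ : ¬ q ∣ (ℓ : ℕ) := s44ha_not_dvd_prime A hA M ℓ hℓN
  obtain ⟨hαC, hβC, hPC, hfinC, hFIC, hNC⟩ := mzrh_heckeInputsC M ℓ (jcr_rho A hA) hqM hqℓ
  haveI := hPC
  have hpd : s44k2d_PDiv (K := s44e_kA A) m fb := ⟨h.1, hd⟩
  have hT := twfq_fbar_hecke A hA M hqM (m := m) ℓ hℓN h
  have hpdT := s44k2d_pdiv_corr (mzrh_beC (s44e_kA A) M ℓ) (mzrh_alC (s44e_kA A) M ℓ) hβC hαC hFIC
    hfinC hNC hm0 hpd
  intro Q
  exact (twfr_nuAll_eq_zero_iff A hq.out hA M (Nat.pos_of_ne_zero hm0) (s44rd_hmem A hA M hqM)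
    hT Q).2 (hpdT.2 Q)

end General

section Closed

variable (A : ValuationSubring Qb) {q : ℕ} [hq : Fact q.Prime] (hA : A.LiesOverPrime q)
  (M : ℕ) [NeZero M] [NeZero q] [NeZero (M * q)] (hqM : ¬ q ∣ M) (hq2 : q ≠ 2)
  {m : ℕ} (hm0 : m ≠ 0) (hm6 : Nat.Coprime m 6)

include hA hqM hq2 hm0 hm6

/-- **(Z6) [RES-Hecke]**: `δ (T_ℓ z) = T̃_ℓ (δ z)` on `J₀(M q)[m] ∩ ker ν`, every prime `ℓ ∤ M q`. -/
theorem twfq_delta_hecke (ℓ : Nat.Primes) (hℓN : ¬ (ℓ : ℕ) ∣ M * q) {z : JZero (M * q)}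
    (hz : m • z = 0) (hν : twfr_nu A M q hq.out hqM m z = 0) :
    twfr_delta A M q m (heckeOperatorBar (M * q) ℓ z) =
      s44k2_TCp (s44e_kA A) M ℓ (twfr_delta A M q m z) :=
  twfq_delta_hecke_of A hA M hqM hm0 ℓ hℓN hz (twfr_fbar_spec' A hA M hqM hm0 hz)
    (twfr_dvd_all A hA M hqM hq2 hm0 hm6 hz hν)

/-- `ν z = 0 ⟹ ν (T_ℓ z) = 0` (at every place). -/
theorem twfq_nu_hecke_zero (ℓ : Nat.Primes) (hℓN : ¬ (ℓ : ℕ) ∣ M * q) {z : JZero (M * q)}
    (hz : m • z = 0) (hν : twfr_nu A M q hq.out hqM m z = 0) :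
    twfr_nu A M q hq.out hqM m (heckeOperatorBar (M * q) ℓ z) = 0 := by
  funext i
  exact twfq_dvd_hecke_of A hA M hqM hm0 ℓ hℓN (twfr_fbar_spec' A hA M hqM hm0 hz)
    (twfr_dvd_all A hA M hqM hq2 hm0 hm6 hz hν) i.1

/-- `δ` commutes with integer multiples on `J₀(M q)[m] ∩ ker ν`. -/
theorem twfq_delta_zsmul {z : JZero (M * q)} (hz : m • z = 0)
    (hν : twfr_nu A M q hq.out hqM m z = 0) (a : ℤ) :
    twfr_nu A M q hq.out hqM m (a • z) = 0 ∧
      twfr_delta A M q m (a • z) = a • twfr_delta A M q m z := by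
  have hzero : twfr_nu A M q hq.out hqM m (0 : JZero (M * q)) = 0 ∧
      twfr_delta A M q m (0 : JZero (M * q)) = 0 := by
    have h0 : m • (0 : JZero (M * q)) = 0 := smul_zero _
    have hν0 : twfr_nu A M q hq.out hqM m (0 : JZero (M * q)) = 0 := by
      have h := twfr_nu_add A hA M hqM hm0 h0 h0
      rw [add_zero] at h
      exact left_eq_add.1 h
    refine ⟨hν0, ?_⟩
    have h := twfr_delta_add_of_nu A hA M hqM hq2 hm0 hm6 h0 h0 hν0 hν0
    rw [add_zero] at h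
    exact left_eq_add.1 h
  have hnat : ∀ n : ℕ, twfr_nu A M q hq.out hqM m (n • z) = 0 ∧
      twfr_delta A M q m (n • z) = n • twfr_delta A M q m z := by
    intro n
    induction n with
    | zero => rw [zero_nsmul, zero_nsmul]; exact hzero
    | succ n ih =>
      have hnz : m • (n • z) = 0 := by rw [smul_comm, hz, smul_zero]
      refine ⟨?_, ?_⟩
      · rw [succ_nsmul, twfr_nu_add A hA M hqM hm0 hnz hz, ih.1, hν, add_zero]
      · rw [succ_nsmul, succ_nsmul,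
          twfr_delta_add_of_nu A hA M hqM hq2 hm0 hm6 hnz hz ih.1 hν, ih.2]
  have hneg : ∀ w : JZero (M * q), m • w = 0 → twfr_nu A M q hq.out hqM m w = 0 →
      twfr_nu A M q hq.out hqM m (-w) = 0 ∧
        twfr_delta A M q m (-w) = -twfr_delta A M q m w := by
    intro w hw hνw
    have hnw : m • (-w) = 0 := by rw [neg_nsmul, hw, _root_.neg_zero]
    have h1 := twfr_nu_add A hA M hqM hm0 hw hnw
    rw [add_neg_cancel, hzero.1, hνw, zero_add] at h1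
    refine ⟨h1.symm, ?_⟩
    have h2 := twfr_delta_add_of_nu A hA M hqM hq2 hm0 hm6 hw hnw hνw h1.symm
    rw [add_neg_cancel, hzero.2] at h2
    exact (neg_eq_of_add_eq_zero_right h2.symm).symm
  obtain ⟨n, rfl | rfl⟩ := a.eq_nat_or_neg
  · rw [natCast_zsmul, natCast_zsmul]
    exact hnat n
  · have hnz : m • (n • z) = 0 := by rw [smul_comm, hz, smul_zero]
    rw [neg_smul, neg_smul, natCast_zsmul, natCast_zsmul]
    obtain ⟨h1, h2⟩ := hneg (n • z) hnz (hnat n).1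
    exact ⟨h1, by rw [h2, (hnat n).2]⟩

/-- **eigen-form of (Z6)**: `T_ℓ z = a • z`, `ν z = 0 ⟹ T̃_ℓ (δ z) = a • δ z`. -/
theorem twfq_delta_eigen (ℓ : Nat.Primes) (hℓN : ¬ (ℓ : ℕ) ∣ M * q) {z : JZero (M * q)}
    (hz : m • z = 0) (hν : twfr_nu A M q hq.out hqM m z = 0) (a : ℤ)
    (he : heckeOperatorBar (M * q) ℓ z = a • z) :
    s44k2_TCp (s44e_kA A) M ℓ (twfr_delta A M q m z) = a • twfr_delta A M q m z := by
  rw [← twfq_delta_hecke A hA M hqM hq2 hm0 hm6 ℓ hℓN hz hν, he]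
  exact (twfq_delta_zsmul A hA M hqM hq2 hm0 hm6 hz hν a).2

/-- helper12's hypothesis `twfk_Star` (`TW/Easy/ResHecke.lean`) is a theorem. -/
theorem twfq_star (ℓ : Nat.Primes) (hℓN : ¬ (ℓ : ℕ) ∣ M * q) : twfk_Star A M q m ℓ :=
  fun _ _ _ h => twfq_fbar_hecke A hA M hqM ℓ hℓN h

/-- **(Z6) for `δ₀ = δ ∘ W_q`**, unconditional (helper12's `twfk_delta0_hecke` + (★★)_m). -/
theorem twfq_delta0_hecke (ℓ : Nat.Primes) (hℓN : ¬ (ℓ : ℕ) ∣ M * q) {z : JZero (M * q)}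
    (hz : m • z = 0)
    (hν : twfr_nu A M q hq.out hqM m (s44w_WJ M q hq.out hqM z) = 0) :
    twfr_delta A M q m (s44w_WJ M q hq.out hqM (heckeOperatorBar (M * q) ℓ z)) =
      s44k2_TCp (s44e_kA A) M ℓ (twfr_delta A M q m (s44w_WJ M q hq.out hqM z)) :=
  twfk_delta0_hecke A hA M hqM hq2 hm0 hm6 ℓ hℓN
    (twfq_star A hA M hqM hq2 hm0 hm6 ℓ hℓN) hz hν

end Closed

end Fermat.Agent.TW
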